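/-
S01 wiring: Fermat's Last Theorem from
  (1) a Frey package construction for prime exponents p ≥ 5 (statement S02), and
  (2) non-existence of Frey packages (statement S03),
using Mathlib's n = 3 and n = 4 cases.
Both inputs are taken as hypotheses here, so this file has no dependency on unfinished work.
-/
import Mathlib.NumberTheory.FLT.Basic
import Mathlib.NumberTheory.FLT.Three
import Mathlib.NumberTheory.FLT.Four
import Fermat.Prelude.Def_FLTPrelim_FreyPackage

set_option autoImplicit false

namespace Fermat.Agent.S01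

/-- FLT for a prime exponent `p ≥ 5`, given the two Frey inputs. -/
theorem fermatLastTheoremFor_of_frey
    (hof : ∀ (a b c : ℤ), a ≠ 0 → b ≠ 0 → c ≠ 0 → ∀ (p : ℕ), p.Prime → 5 ≤ p →
      a ^ p + b ^ p = c ^ p → Nonempty FreyPackage)
    (hno : FreyPackage → False)
    (p : ℕ) (pp : p.Prime) (hp5 : 5 ≤ p) : FermatLastTheoremFor p := by
  rw [fermatLastTheoremFor_iff_int]
  intro a b c ha hb hc H
  obtain ⟨P⟩ := hof a b c ha hb hc p pp hp5 H
  exact hno P

/-- Fermat's Last Theorem, given the two Frey inputs. -/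
theorem fermatLastTheorem_of_frey
    (hof : ∀ (a b c : ℤ), a ≠ 0 → b ≠ 0 → c ≠ 0 → ∀ (p : ℕ), p.Prime → 5 ≤ p →
      a ^ p + b ^ p = c ^ p → Nonempty FreyPackage)
    (hno : FreyPackage → False) : FermatLastTheorem := by
  apply FermatLastTheorem.of_odd_primes
  intro p pp hodd
  by_cases h5 : 5 ≤ p
  · exact fermatLastTheoremFor_of_frey hof hno p pp h5
  · have h3 : p = 3 := by
      have h2 : 2 ≤ p := pp.two_le
      have hlt : p < 5 := by omega
      interval_cases p
      · exact absurd hodd (by decide)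
      · rfl
      · exact absurd pp (by decide)
    subst h3
    exact fermatLastTheoremThree

/-- The elementary form of the root statement, given the two Frey inputs. -/
theorem root_of_frey
    (hof : ∀ (a b c : ℤ), a ≠ 0 → b ≠ 0 → c ≠ 0 → ∀ (p : ℕ), p.Prime → 5 ≤ p →
      a ^ p + b ^ p = c ^ p → Nonempty FreyPackage)
    (hno : FreyPackage → False)
    (n : ℕ) (hn : 3 ≤ n) (a b c : ℕ) (ha : 0 < a) (hb : 0 < b) (hc : 0 < c) :
    a ^ n + b ^ n ≠ c ^ n :=
  fermatLastTheorem_of_frey hof hno n hn a b c ha.ne' hb.ne' hc.ne'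

end Fermat.Agent.S01
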